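import Fermat.Agent.FrobDens.Density

set_option autoImplicit false

/-!
# Frobenius density theorem: conclusion
-/

namespace Fermat.Agent.FrobDens

open NumberField Filter Topology Asymptotics

local notation "Qbar" => AlgebraicClosure ℚ

section Series

/-- Dirichlet series over primes with bounded coefficients -/
noncomputable def pser (a : Nat.Primes → ℝ) (s : ℝ) : ℝ :=
  ∑' ℓ : Nat.Primes, a ℓ * ((ℓ : ℕ) : ℝ) ^ (-s)

lemma summable_pser {a : Nat.Primes → ℝ} {B : ℝ} (hB : ∀ ℓ, |a ℓ| ≤ B) {s : ℝ} (hs : 1 < s) :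
    Summable (fun ℓ : Nat.Primes => a ℓ * ((ℓ : ℕ) : ℝ) ^ (-s)) := by
  have h1 : Summable (fun ℓ : Nat.Primes => ((ℓ : ℕ) : ℝ) ^ (-s)) :=
    (Real.summable_nat_rpow.mpr (by linarith : -s < -1)).comp_injective Subtype.val_injective
  refine Summable.of_norm_bounded (h1.mul_left B) fun ℓ => ?_
  have h2 : 0 ≤ ((ℓ : ℕ) : ℝ) ^ (-s) := Real.rpow_nonneg (Nat.cast_nonneg _) _
  rw [norm_mul, Real.norm_eq_abs, Real.norm_of_nonneg h2]
  exact mul_le_mul_of_nonneg_right (hB ℓ) h2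

lemma rpow_neg_le_one (ℓ : Nat.Primes) {s : ℝ} (hs : 1 < s) : ((ℓ : ℕ) : ℝ) ^ (-s) ≤ 1 :=
  Real.rpow_le_one_of_one_le_of_nonpos (by exact_mod_cast ℓ.2.one_lt.le) (by linarith)

/-- a series supported on a finite set is bounded near `1⁺` -/
lemma pser_finite_isBigO {a : Nat.Primes → ℝ} (S : Finset Nat.Primes) (hS : ∀ ℓ ∉ S, a ℓ = 0) :
    (fun s => pser a s) =O[𝓝[>] 1] (fun _ => (1 : ℝ)) := by
  rw [isBigO_one_iff]
  refine ⟨∑ ℓ ∈ S, |a ℓ|, ?_⟩
  rw [eventually_map]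
  filter_upwards [self_mem_nhdsWithin] with s hs
  have h1 : pser a s = ∑ ℓ ∈ S, a ℓ * ((ℓ : ℕ) : ℝ) ^ (-s) := by
    unfold pser
    exact tsum_eq_sum fun ℓ hℓ => by rw [hS ℓ hℓ, zero_mul]
  show ‖pser a s‖ ≤ _
  rw [h1]
  refine (norm_sum_le _ _).trans (Finset.sum_le_sum fun ℓ _ => ?_)
  have h2 : 0 ≤ ((ℓ : ℕ) : ℝ) ^ (-s) := Real.rpow_nonneg (Nat.cast_nonneg _) _
  rw [norm_mul, Real.norm_eq_abs, Real.norm_of_nonneg h2]
  exact mul_le_of_le_one_right (abs_nonneg _) (rpow_neg_le_one ℓ hs)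

/-- series with almost everywhere equal bounded coefficients differ by a bounded function -/
lemma pser_sub_isBigO {a b : Nat.Primes → ℝ} {A B : ℝ} (hA : ∀ ℓ, |a ℓ| ≤ A) (hB : ∀ ℓ, |b ℓ| ≤ B)
    (S : Finset Nat.Primes) (hS : ∀ ℓ ∉ S, a ℓ = b ℓ) :
    (fun s => pser a s - pser b s) =O[𝓝[>] 1] (fun _ => (1 : ℝ)) := by
  have h1 := pser_finite_isBigO (a := fun ℓ => a ℓ - b ℓ) S fun ℓ hℓ => by rw [hS ℓ hℓ, sub_self]
  refine h1.congr' ?_ EventuallyEq.rfl
  filter_upwards [self_mem_nhdsWithin] with s hs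
  unfold pser
  rw [← (summable_pser hA hs).tsum_sub (summable_pser hB hs)]
  exact tsum_congr fun ℓ => by ring

lemma lam_not_isBigO : ¬ ((fun s : ℝ => -Real.log (s - 1)) =O[𝓝[>] 1] (fun _ => (1 : ℝ))) := by
  intro h
  rw [isBigO_one_iff] at h
  obtain ⟨C, hC⟩ := h
  rw [eventually_map] at hC
  have h1 : Tendsto (fun s : ℝ => s - 1) (𝓝[>] 1) (𝓝[>] 0) := by
    have : Tendsto (fun s : ℝ => s - 1) (𝓝[>] 1) (𝓝 0) := by
      have h : Tendsto (fun s : ℝ => s - 1) (𝓝 1) (𝓝 (1 - 1)) :=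
        (continuous_id.sub continuous_const).tendsto 1
      rw [sub_self] at h
      exact h.mono_left nhdsWithin_le_nhds
    rw [tendsto_nhdsWithin_iff]
    refine ⟨this, ?_⟩
    filter_upwards [self_mem_nhdsWithin] with s hs
    have hs' : (1 : ℝ) < s := hs
    exact sub_pos.mpr hs'
  have h2 := Real.tendsto_log_nhdsGT_zero.comp h1
  have h3 : ∀ᶠ s in 𝓝[>] (1 : ℝ), Real.log (s - 1) < -C :=
    h2.eventually (eventually_lt_atBot (-C))
  obtain ⟨s, hs1, hs2⟩ := (hC.and h3).exists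
  have h4 : -Real.log (s - 1) ≤ C := (le_abs_self _).trans hs1
  linarith

end Series

section Main

variable (L : IntermediateField ℚ Qbar) [FiniteDimensional ℚ L] [IsGalois ℚ L]

instance numberField_intermediate : NumberField L where
  to_charZero := inferInstance
  to_finiteDimensional := inferInstance

/-- chosen place above `ℓ` -/
noncomputable def plc (ℓ : Nat.Primes) : ValuationSubring Qbar :=
  (Frob.exists_place_frobenius ℓ.2).choose

lemma plc_lies (ℓ : Nat.Primes) : (plc ℓ).LiesOverPrime ℓ :=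
  (Frob.exists_place_frobenius ℓ.2).choose_spec.1

/-- chosen Frobenius -/
noncomputable def frb (ℓ : Nat.Primes) : Qbar ≃ₐ[ℚ] Qbar :=
  (Frob.exists_place_frobenius ℓ.2).choose_spec.2.choose

lemma frb_spec (ℓ : Nat.Primes) : (plc ℓ).IsFrobeniusAt (frb ℓ) ℓ :=
  (Frob.exists_place_frobenius ℓ.2).choose_spec.2.choose_spec

/-- number of `g` with `⟨g⁻¹ Frob_ℓ g⟩ = C` -/
noncomputable def nC (C : Subgroup (L ≃ₐ[ℚ] L)) (ℓ : Nat.Primes) : ℕ :=
  Nat.card {g : L ≃ₐ[ℚ] L // Subgroup.zpowers (g⁻¹ * res L (frb ℓ) * g) = C}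

/-- number of `g` with `g⁻¹ Frob_ℓ g ∈ C` -/
noncomputable def hC (C : Subgroup (L ≃ₐ[ℚ] L)) (ℓ : Nat.Primes) : ℕ :=
  Nat.card {g : L ≃ₐ[ℚ] L // g⁻¹ * res L (frb ℓ) * g ∈ C}

/-- number of generators -/
noncomputable def gen (C : Subgroup (L ≃ₐ[ℚ] L)) : ℕ :=
  Nat.card {g : L ≃ₐ[ℚ] L // Subgroup.zpowers g = C}

lemma nC_le (C : Subgroup (L ≃ₐ[ℚ] L)) (ℓ : Nat.Primes) :
    |(nC L C ℓ : ℝ)| ≤ Nat.card (L ≃ₐ[ℚ] L) := by
  rw [Nat.abs_cast]
  exact_mod_cast Nat.card_le_card_of_injective Subtype.val Subtype.val_injective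

lemma hC_le (C : Subgroup (L ≃ₐ[ℚ] L)) (ℓ : Nat.Primes) :
    |(hC L C ℓ : ℝ)| ≤ Nat.card (L ≃ₐ[ℚ] L) := by
  rw [Nat.abs_cast]
  exact_mod_cast Nat.card_le_card_of_injective Subtype.val Subtype.val_injective

open Classical in
lemma hC_eq_sum (C : Subgroup (L ≃ₐ[ℚ] L)) (ℓ : Nat.Primes) :
    hC L C ℓ = ∑ D ∈ Finset.univ.filter (fun D : Subgroup (L ≃ₐ[ℚ] L) => D ≤ C), nC L D ℓ := by
  unfold hC nC
  simp only [Nat.card_eq_fintype_card, Fintype.card_subtype]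
  rw [← Finset.card_biUnion]
  · congr 1
    ext g
    simp only [Finset.mem_filter, Finset.mem_univ, true_and, Finset.mem_biUnion]
    constructor
    · intro h
      exact ⟨_, Subgroup.zpowers_le.mpr h, rfl⟩
    · rintro ⟨D, hD, h⟩
      exact hD (h ▸ Subgroup.mem_zpowers _)
  · intro D _ D' _ hne
    rw [Function.onFun, Finset.disjoint_left]
    intro g hg hg'
    simp only [Finset.mem_filter, Finset.mem_univ, true_and] at hg hg'
    exact hne (hg.symm.trans hg')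

open Classical in
lemma card_eq_sum_gen (C : Subgroup (L ≃ₐ[ℚ] L)) :
    Nat.card C = ∑ D ∈ Finset.univ.filter (fun D : Subgroup (L ≃ₐ[ℚ] L) => D ≤ C), gen L D := by
  have h0 : Nat.card C = Nat.card {g : L ≃ₐ[ℚ] L // g ∈ C} := rfl
  rw [h0]
  unfold gen
  simp only [Nat.card_eq_fintype_card, Fintype.card_subtype]
  rw [← Finset.card_biUnion]
  · congr 1
    ext g
    simp only [Finset.mem_filter, Finset.mem_univ, true_and, Finset.mem_biUnion]
    constructor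
    · intro h
      exact ⟨_, Subgroup.zpowers_le.mpr h, rfl⟩
    · rintro ⟨D, hD, h⟩
      exact hD (h ▸ Subgroup.mem_zpowers _)
  · intro D _ D' _ hne
    rw [Function.onFun, Finset.disjoint_left]
    intro g hg hg'
    simp only [Finset.mem_filter, Finset.mem_univ, true_and] at hg hg'
    exact hne (hg.symm.trans hg')

/-- primes dividing a nonzero integer -/
lemma exists_finset_primes {m : ℤ} (hm : m ≠ 0) :
    ∃ S : Finset Nat.Primes, ∀ ℓ : Nat.Primes, ℓ ∉ S → ¬ ((ℓ : ℕ) : ℤ) ∣ m := by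
  classical
  have hfin : {ℓ : Nat.Primes | ((ℓ : ℕ) : ℤ) ∣ m}.Finite := by
    refine Set.Finite.of_finite_image (f := fun ℓ : Nat.Primes => (ℓ : ℕ)) ?_
      (Set.injOn_of_injective Subtype.val_injective)
    refine (Set.finite_le_nat m.natAbs).subset ?_
    rintro _ ⟨ℓ, hℓ, rfl⟩
    exact Nat.le_of_dvd (Int.natAbs_pos.mpr hm) (Int.natCast_dvd.mp hℓ)
  exact ⟨hfin.toFinset, fun ℓ hℓ hd => hℓ (hfin.mem_toFinset.mpr hd)⟩

lemma hser_isBigO (C : Subgroup (L ≃ₐ[ℚ] L)) :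
    (fun s => pser (fun ℓ => (hC L C ℓ : ℝ)) s - (Nat.card C : ℝ) * (-Real.log (s - 1)))
      =O[𝓝[>] 1] (fun _ => (1 : ℝ)) := by
  obtain ⟨m, hm0, hm⟩ := cnt_eq_card_fixed (IntermediateField.fixedField C)
  obtain ⟨S, hS⟩ := exists_finset_primes hm0
  -- comparison with the ideal counting function
  have hcnt : ∀ ℓ : Nat.Primes, |((Nat.card C : ℝ) *
      cnt (IntermediateField.fixedField C) ℓ)| ≤
        Nat.card C * 2 ^ Module.finrank ℚ (IntermediateField.fixedField C) := by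
    intro ℓ
    have h1 := cnt_prime_pow_le (K := IntermediateField.fixedField C) ℓ.2 1
    rw [pow_one] at h1
    rw [abs_of_nonneg (by positivity)]
    refine mul_le_mul_of_nonneg_left ?_ (Nat.cast_nonneg _)
    exact_mod_cast h1
  have h1 := pser_sub_isBigO (a := fun ℓ => (hC L C ℓ : ℝ))
    (b := fun ℓ => (Nat.card C : ℝ) * cnt (IntermediateField.fixedField C) ℓ)
    (hC_le L C) hcnt S (fun ℓ hℓ => by
      have h2 := hm ℓ ℓ.2 (hS ℓ hℓ) (plc ℓ) (plc_lies ℓ) (frb ℓ) (frb_spec ℓ)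
      show (hC L C ℓ : ℝ) = _
      rw [hC, card_conj_mem, h2]
      push_cast
      ring)
  obtain ⟨B, hB⟩ := exists_bound_psum (IntermediateField.fixedField C)
  have h2 : (fun s => psum (IntermediateField.fixedField C) s + Real.log (s - 1))
      =O[𝓝[>] 1] (fun _ => (1 : ℝ)) := by
    rw [isBigO_one_iff]
    exact ⟨B, hB⟩
  have h3 := h1.add (h2.const_mul_left (Nat.card C : ℝ))
  refine h3.congr_left fun s => ?_
  have h4 : pser (fun ℓ => (Nat.card C : ℝ) * cnt (IntermediateField.fixedField C) ℓ) s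
      = Nat.card C * psum (IntermediateField.fixedField C) s := by
    unfold pser psum zterm
    rw [← tsum_mul_left]
    exact tsum_congr fun ℓ => by ring
  rw [h4]
  ring

lemma nser_isBigO (C : Subgroup (L ≃ₐ[ℚ] L)) :
    (fun s => pser (fun ℓ => (nC L C ℓ : ℝ)) s - (gen L C : ℝ) * (-Real.log (s - 1)))
      =O[𝓝[>] 1] (fun _ => (1 : ℝ)) := by
  classical
  induction C using WellFoundedLT.induction with
  | ind C ih =>
    set T : Finset (Subgroup (L ≃ₐ[ℚ] L)) := Finset.univ.filter (fun D => D < C) with hT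
    have hsplit : Finset.univ.filter (fun D : Subgroup (L ≃ₐ[ℚ] L) => D ≤ C)
        = insert C T := by
      ext D
      simp only [hT, Finset.mem_filter, Finset.mem_univ, true_and, Finset.mem_insert]
      rw [le_iff_lt_or_eq, or_comm]
    have hCT : C ∉ T := by simp [hT]
    have h1 := hser_isBigO L C
    have h2 : (fun s => ∑ D ∈ T, (pser (fun ℓ => (nC L D ℓ : ℝ)) s
        - (gen L D : ℝ) * (-Real.log (s - 1)))) =O[𝓝[>] 1] (fun _ => (1 : ℝ)) :=
      IsBigO.fun_sum fun D hD => ih D (by simpa [hT] using hD)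
    refine (h1.sub h2).congr' ?_ EventuallyEq.rfl
    filter_upwards [self_mem_nhdsWithin] with s hs
    have h3 : pser (fun ℓ => (hC L C ℓ : ℝ)) s
        = pser (fun ℓ => (nC L C ℓ : ℝ)) s + ∑ D ∈ T, pser (fun ℓ => (nC L D ℓ : ℝ)) s := by
      unfold pser
      rw [← Summable.tsum_finsetSum (fun D _ => summable_pser (nC_le L D) hs),
        ← (summable_pser (nC_le L C) hs).tsum_add
          (summable_sum fun D _ => summable_pser (nC_le L D) hs)]
      refine tsum_congr fun ℓ => ?_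
      show (hC L C ℓ : ℝ) * _ = (nC L C ℓ : ℝ) * _ + _
      rw [hC_eq_sum, hsplit, Finset.sum_insert hCT]
      push_cast
      rw [add_mul, Finset.sum_mul]
    have h4 : (Nat.card C : ℝ) = gen L C + ∑ D ∈ T, (gen L D : ℝ) := by
      rw [card_eq_sum_gen, hsplit, Finset.sum_insert hCT]
      push_cast
      rfl
    rw [h3, h4, Finset.sum_sub_distrib, ← Finset.sum_mul]
    ring

/-- **Frobenius density theorem**, finite level version. -/
theorem exists_prime_frob_generates (σ : L ≃ₐ[ℚ] L) (S : Finset Nat.Primes) :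
    ∃ ℓ : Nat.Primes, ℓ ∉ S ∧ ∃ g : L ≃ₐ[ℚ] L,
      Subgroup.zpowers (g⁻¹ * res L (frb ℓ) * g) = Subgroup.zpowers σ := by
  by_contra hcon
  push Not at hcon
  have hzero : ∀ ℓ ∉ S, (nC L (Subgroup.zpowers σ) ℓ : ℝ) = 0 := by
    intro ℓ hℓ
    have : IsEmpty {g : L ≃ₐ[ℚ] L //
        Subgroup.zpowers (g⁻¹ * res L (frb ℓ) * g) = Subgroup.zpowers σ} :=
      ⟨fun g => hcon ℓ hℓ g.1 g.2⟩
    rw [nC, Nat.card_of_isEmpty, Nat.cast_zero]
  have h1 := pser_finite_isBigO S hzero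
  have h2 := nser_isBigO L (Subgroup.zpowers σ)
  have h3 := h1.sub h2
  have hgen : (gen L (Subgroup.zpowers σ) : ℝ) ≠ 0 := by
    have : Nonempty {g : L ≃ₐ[ℚ] L // Subgroup.zpowers g = Subgroup.zpowers σ} := ⟨⟨σ, rfl⟩⟩
    exact_mod_cast (Nat.card_pos (α := {g : L ≃ₐ[ℚ] L //
      Subgroup.zpowers g = Subgroup.zpowers σ})).ne'
  refine lam_not_isBigO ?_
  have h4 := h3.const_mul_left ((gen L (Subgroup.zpowers σ) : ℝ)⁻¹)
  refine h4.congr_left fun s => ?_
  rw [sub_sub_cancel, ← mul_assoc, inv_mul_cancel₀ hgen, one_mul]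

end Main

section Conj

open scoped Pointwise

variable {A : ValuationSubring Qbar} {τ : Qbar ≃ₐ[ℚ] Qbar} {ℓ : ℕ}

/-- elementary description of Frobenius elements -/
lemma isFrobeniusAt_iff :
    A.IsFrobeniusAt τ ℓ ↔ τ • A = A ∧ ∀ x ∈ A, A.valuation (τ x - x ^ ℓ) < 1 := by
  constructor
  · rintro ⟨h1, h2⟩
    refine ⟨h1, fun x hx => ?_⟩
    have h3 := h2 (IsLocalRing.residue A ⟨x, hx⟩)
    rw [← map_pow] at h3
    exact (residue_eq_iff A ((⟨τ, h1⟩ : A.decompositionSubgroup ℚ) • (⟨x, hx⟩ : A))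
      ((⟨x, hx⟩ : A) ^ ℓ)).mp h3
  · rintro ⟨h1, h2⟩
    refine ⟨h1, fun x => ?_⟩
    obtain ⟨⟨x, hx⟩, rfl⟩ := IsLocalRing.residue_surjective x
    rw [← map_pow]
    exact (residue_eq_iff A ((⟨τ, h1⟩ : A.decompositionSubgroup ℚ) • (⟨x, hx⟩ : A))
      ((⟨x, hx⟩ : A) ^ ℓ)).mpr (h2 x hx)

lemma valuation_lt_one_iff' (A : ValuationSubring Qbar) (z : Qbar) :
    A.valuation z < 1 ↔ (z = 0 ∨ z⁻¹ ∉ A) := by
  by_cases hz : z = 0
  · simp [hz]
  · rw [← A.valuation_le_one_iff, map_inv₀, or_iff_right hz, not_le,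
      one_lt_inv₀ (zero_lt_iff.mpr ((Valuation.ne_zero_iff _).mpr hz))]

lemma valuation_smul_lt_one_iff (A : ValuationSubring Qbar) (g : Qbar ≃ₐ[ℚ] Qbar) (z : Qbar) :
    (g • A).valuation (g z) < 1 ↔ A.valuation z < 1 := by
  rw [valuation_lt_one_iff', valuation_lt_one_iff']
  have h1 : (g z)⁻¹ = g • z⁻¹ := by rw [AlgEquiv.smul_def, map_inv₀]
  rw [h1, ValuationSubring.smul_mem_pointwise_smul_iff, map_eq_zero_iff g g.injective]

/-- conjugating a place -/
lemma liesOver_smul (hA : A.LiesOverPrime ℓ) (g : Qbar ≃ₐ[ℚ] Qbar) :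
    (g • A).LiesOverPrime ℓ := by
  have h := (valuation_smul_lt_one_iff A g (ℓ : Qbar)).mpr hA
  rwa [map_natCast] at h

/-- conjugating a Frobenius -/
lemma isFrobeniusAt_conj (h : A.IsFrobeniusAt τ ℓ) (g : Qbar ≃ₐ[ℚ] Qbar) :
    (g • A).IsFrobeniusAt (g * τ * g⁻¹) ℓ := by
  rw [isFrobeniusAt_iff] at h ⊢
  refine ⟨?_, fun x hx => ?_⟩
  · rw [mul_smul, mul_smul, inv_smul_smul, h.1]
  · rw [ValuationSubring.mem_pointwise_smul_iff_inv_smul_mem] at hx
    have h1 := h.2 _ hx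
    rw [← valuation_smul_lt_one_iff A g, map_sub, map_pow] at h1
    have h2 : g (g⁻¹ • x) = x := smul_inv_smul g x
    rw [h2] at h1
    exact h1

end Conj

open scoped Pointwise in
set_option maxHeartbeats 400000 in
/-- **Frobenius density theorem**: given a number field `L ⊆ Qbar`, a finite set `S` of primes and
`σ` in the absolute Galois group there are a prime `ℓ ∉ S`, a place `A` of `Qbar` over `ℓ` and a
Frobenius `τ` at `A` such that `σ` and `τ` are powers of each other on `L`. -/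
theorem exists_frobenius (L : IntermediateField ℚ Qbar) [FiniteDimensional ℚ L]
    (S : Set ℕ) (hS : S.Finite) (σ : Qbar ≃ₐ[ℚ] Qbar) :
    ∃ ℓ : ℕ, ℓ.Prime ∧ ℓ ∉ S ∧ ∃ A : ValuationSubring Qbar, A.LiesOverPrime ℓ ∧
      ∃ τ : Qbar ≃ₐ[ℚ] Qbar, A.IsFrobeniusAt τ ℓ ∧
        ∃ k m : ℕ, (∀ x ∈ L, (τ ^ k) x = σ x) ∧ (∀ x ∈ L, (σ ^ m) x = τ x) := by
  classical
  haveI := Frob.isGalois_Qbar
  obtain ⟨N, hN1, hN2, hLN⟩ : ∃ N : IntermediateField ℚ Qbar, FiniteDimensional ℚ N ∧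
      IsGalois ℚ N ∧ L ≤ N := by
    haveI : Normal ℚ Qbar := inferInstance
    have h1 : Normal ℚ (IntermediateField.normalClosure ℚ L Qbar) := normalClosure.normal ℚ L Qbar
    refine ⟨IntermediateField.normalClosure ℚ L Qbar, inferInstance, ?_,
      IntermediateField.le_normalClosure L⟩
    exact @IsGalois.mk _ _ _ _ _ inferInstance h1
  obtain ⟨ℓ, hℓS, g, hg⟩ := exists_prime_frob_generates N (res N σ)
    (hS.preimage (Set.injOn_of_injective
      (Subtype.val_injective (p := Nat.Prime)))).toFinset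
  obtain ⟨g', hg'⟩ := AlgEquiv.restrictNormalHom_surjective (F := ℚ) (K₁ := N) Qbar g
  have hg'' : res N g' = g := hg'
  refine ⟨ℓ, ℓ.2, ?_, g'⁻¹ • plc ℓ, liesOver_smul (plc_lies ℓ) _,
    g'⁻¹ * frb ℓ * g'⁻¹⁻¹, isFrobeniusAt_conj (frb_spec ℓ) _, ?_⟩
  · intro h
    exact hℓS ((Set.Finite.mem_toFinset _).mpr h)
  set τ := g'⁻¹ * frb ℓ * g'⁻¹⁻¹ with hτ
  have h1 : res N τ = g⁻¹ * res N (frb ℓ) * g := by
    rw [← resHom_apply, hτ, inv_inv, map_mul, map_mul, map_inv, resHom_apply, resHom_apply, hg'']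
  rw [← h1] at hg
  have h2 : res N σ ∈ Submonoid.powers (res N τ) := by
    rw [mem_powers_iff_mem_zpowers, hg]
    exact Subgroup.mem_zpowers _
  have h3 : res N τ ∈ Submonoid.powers (res N σ) := by
    rw [mem_powers_iff_mem_zpowers, ← hg]
    exact Subgroup.mem_zpowers _
  obtain ⟨k, hk⟩ := h2
  obtain ⟨m, hm⟩ := h3
  refine ⟨k, m, fun x hx => ?_, fun x hx => ?_⟩
  · have h4 : res N (τ ^ k) ⟨x, hLN hx⟩ = res N σ ⟨x, hLN hx⟩ := by
      rw [← resHom_apply (τ ^ k), map_pow, resHom_apply]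
      exact DFunLike.congr_fun hk _
    have h5 := congrArg Subtype.val h4
    rwa [coe_res, coe_res] at h5
  · have h4 : res N (σ ^ m) ⟨x, hLN hx⟩ = res N τ ⟨x, hLN hx⟩ := by
      rw [← resHom_apply (σ ^ m), map_pow, resHom_apply]
      exact DFunLike.congr_fun hm _
    have h5 := congrArg Subtype.val h4
    rwa [coe_res, coe_res] at h5

end Fermat.Agent.FrobDens
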