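import Fermat.Agent.FrobDens.Zeta
import Fermat.Prelude.Def_EllipticCurve_FrobeniusTrace
import Fermat.Agent.Frob.Qbar

set_option autoImplicit false

/-!
# `a_K(ℓ)` = number of embeddings `K → Qbar` fixed by a Frobenius at `ℓ`
-/

namespace Fermat.Agent.FrobDens

open NumberField Ideal Polynomial

local notation "Qbar" => AlgebraicClosure ℚ

variable (K : Type*) [Field K] [NumberField K]

lemma cnt_eq_card_ringHom (ℓ : ℕ) [hℓ : Fact ℓ.Prime] :
    cnt K ℓ = Nat.card (𝓞 K →+* ZMod ℓ) := by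
  rw [cnt_of_ne_zero hℓ.out.ne_zero]
  symm
  refine Nat.card_congr (Equiv.ofBijective (fun φ : 𝓞 K →+* ZMod ℓ =>
    (⟨RingHom.ker φ, ?_⟩ : {I : Ideal (𝓞 K) // absNorm I = ℓ})) ⟨?_, ?_⟩)
  · have hs : Function.Surjective φ := ZMod.ringHom_surjective φ
    rw [Ideal.absNorm_apply, Submodule.cardQuot_apply,
      Nat.card_congr (RingHom.quotientKerEquivOfSurjective hs).toEquiv, Nat.card_zmod]
  · intro φ ψ h
    have h' : RingHom.ker φ = RingHom.ker ψ := congrArg Subtype.val h
    ext x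
    obtain ⟨n, hn⟩ := ZMod.intCast_surjective (φ x)
    have h1 : x - (n : 𝓞 K) ∈ RingHom.ker φ := by
      rw [RingHom.mem_ker, map_sub, map_intCast, hn, sub_self]
    rw [h', RingHom.mem_ker, map_sub, map_intCast, sub_eq_zero] at h1
    rw [h1, hn]
  · rintro ⟨I, hI⟩
    have hcard : Nat.card (𝓞 K ⧸ I) = ℓ := by
      rw [Ideal.absNorm_apply, Submodule.cardQuot_apply] at hI
      exact hI
    haveI : Finite (𝓞 K ⧸ I) := Nat.finite_of_card_ne_zero (by rw [hcard]; exact hℓ.out.ne_zero)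
    letI : Fintype (𝓞 K ⧸ I) := Fintype.ofFinite _
    let e : ZMod ℓ ≃+* (𝓞 K ⧸ I) := ZMod.ringEquivOfPrime (𝓞 K ⧸ I) hℓ.out
      (by rw [← Nat.card_eq_fintype_card, hcard])
    refine ⟨(e.symm : (𝓞 K ⧸ I) →+* ZMod ℓ).comp (Ideal.Quotient.mk I), Subtype.ext ?_⟩
    ext x
    simp only [RingHom.mem_ker, RingHom.comp_apply]
    rw [RingHom.coe_coe, map_eq_zero_iff _ e.symm.injective, Ideal.Quotient.eq_zero_iff_mem]

variable {K}

/-- image of an algebraic integer of `K` in the valuation ring -/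
noncomputable def toVal (A : ValuationSubring Qbar) (ι : K →ₐ[ℚ] Qbar) : 𝓞 K →+* A where
  toFun x := ⟨ι (x : K), Frob.mem_of_isIntegral A (x.2.map (ι.restrictScalars ℤ))⟩
  map_one' := Subtype.ext (map_one ι)
  map_mul' x y := Subtype.ext (map_mul ι (x : K) (y : K))
  map_zero' := Subtype.ext (map_zero ι)
  map_add' x y := Subtype.ext (map_add ι (x : K) (y : K))

lemma coe_toVal (A : ValuationSubring Qbar) (ι : K →ₐ[ℚ] Qbar) (x : 𝓞 K) :
    (toVal A ι x : Qbar) = ι (x : K) := rfl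

/-- reduction of an embedding -/
noncomputable def redEmb (A : ValuationSubring Qbar) (ι : K →ₐ[ℚ] Qbar) :
    𝓞 K →+* IsLocalRing.ResidueField A := (IsLocalRing.residue A).comp (toVal A ι)

lemma redEmb_frob {A : ValuationSubring Qbar} {τ : Qbar ≃ₐ[ℚ] Qbar} {ℓ : ℕ}
    (hτ : A.IsFrobeniusAt τ ℓ) (ι : K →ₐ[ℚ] Qbar) (x : 𝓞 K) :
    redEmb A ((τ : Qbar →ₐ[ℚ] Qbar).comp ι) x = (redEmb A ι x) ^ ℓ := by
  have h := hτ.smul_residue_eq (redEmb A ι x)
  rw [← h]
  rfl

lemma residue_eq_iff (A : ValuationSubring Qbar) (x y : A) :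
    IsLocalRing.residue A x = IsLocalRing.residue A y ↔ A.valuation ((x : Qbar) - y) < 1 := by
  rw [← sub_eq_zero, ← map_sub, IsLocalRing.residue_eq_zero_iff]
  exact A.valuation_lt_one_iff (x - y)

lemma natCast_residue_eq_zero (A : ValuationSubring Qbar) {ℓ : ℕ}
    (hA : A.LiesOverPrime ℓ) : (ℓ : IsLocalRing.ResidueField A) = 0 := by
  have h := (residue_eq_iff A (ℓ : A) 0).mpr (by
    have h1 : (((ℓ : A) : Qbar) - ((0 : A) : Qbar)) = (ℓ : Qbar) := by simp
    rw [h1]
    exact hA)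
  rwa [map_natCast, map_zero] at h

lemma charP_residueField (A : ValuationSubring Qbar) {ℓ : ℕ} (hℓ : ℓ.Prime)
    (hA : A.LiesOverPrime ℓ) : CharP (IsLocalRing.ResidueField A) ℓ := by
  rw [CharP.charP_iff_prime_eq_zero hℓ]
  exact natCast_residue_eq_zero A hA

/-- A nonzero algebraic number that is integral has valuation `1` at all places over primes not
dividing a suitable nonzero integer. -/
lemma exists_int_valuation_eq_one {β : Qbar} (hβ0 : β ≠ 0) (hβ : IsIntegral ℤ β) :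
    ∃ y : ℤ, y ≠ 0 ∧ ∀ (ℓ : ℕ), ℓ.Prime → ¬ (ℓ : ℤ) ∣ y →
      ∀ A : ValuationSubring Qbar, A.LiesOverPrime ℓ → A.valuation β = 1 := by
  have halg : IsAlgebraic ℤ β⁻¹ := hβ.isAlgebraic.inv
  obtain ⟨y, hy0, hy⟩ := halg.exists_integral_multiple
  refine ⟨y, hy0, fun ℓ hℓ hd A hA => ?_⟩
  have h1 : A.valuation β ≤ 1 := (A.valuation_le_one_iff _).mpr (Frob.mem_of_isIntegral A hβ)
  have h2 : A.valuation (y • β⁻¹) ≤ 1 :=
    (A.valuation_le_one_iff _).mpr (Frob.mem_of_isIntegral A hy)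
  rw [zsmul_eq_mul, map_mul, Frob.valuation_intCast_eq_one A hℓ hA hd, one_mul, map_inv₀] at h2
  have hv0 : A.valuation β ≠ 0 := (Valuation.ne_zero_iff _).mpr hβ0
  apply le_antisymm h1
  exact (inv_le_one₀ (zero_lt_iff.mpr hv0)).mp h2

/-- elements of the residue field fixed by Frobenius come from the prime field -/
lemma exists_int_of_pow_eq {k : Type*} [Field k] {ℓ : ℕ} (hℓ : ℓ.Prime) [CharP k ℓ] {x : k}
    (hx : x ^ ℓ = x) : ∃ n : ZMod ℓ, ZMod.castHom (dvd_refl ℓ) k n = x := by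
  haveI : Fact ℓ.Prime := ⟨hℓ⟩
  classical
  -- the polynomial `X^ℓ - X` has at most `ℓ` roots
  set P : k[X] := X ^ ℓ - X with hP
  have hP0 : P ≠ 0 := FiniteField.X_pow_card_sub_X_ne_zero k hℓ.one_lt
  have hdeg : P.natDegree = ℓ := FiniteField.X_pow_card_sub_X_natDegree_eq k hℓ.one_lt
  let S : Finset k := Finset.univ.image (fun n : ZMod ℓ => ZMod.castHom (dvd_refl ℓ) k n)
  have hScard : S.card = ℓ := by
    rw [Finset.card_image_of_injective _ (ZMod.castHom (dvd_refl ℓ) k).injective,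
      Finset.card_univ, ZMod.card]
  have hS : S ⊆ P.roots.toFinset := by
    intro y hy
    obtain ⟨n, -, rfl⟩ := Finset.mem_image.mp hy
    rw [Multiset.mem_toFinset, mem_roots hP0, IsRoot.def, hP, eval_sub, eval_pow, eval_X,
      ← map_pow, ZMod.pow_card, sub_self]
  have hSeq : S = P.roots.toFinset := by
    apply Finset.eq_of_subset_of_card_le hS
    rw [hScard]
    exact (Multiset.toFinset_card_le _).trans ((card_roots' P).trans hdeg.le)
  have hxr : x ∈ P.roots.toFinset := by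
    rw [Multiset.mem_toFinset, mem_roots hP0, IsRoot.def, hP, eval_sub, eval_pow, eval_X, hx,
      sub_self]
  rw [← hSeq] at hxr
  obtain ⟨n, -, hn⟩ := Finset.mem_image.mp hxr
  exact ⟨n, hn⟩

/-- there is an integral primitive element -/
lemma exists_integral_primitive (K : Type*) [Field K] [NumberField K] :
    ∃ α : 𝓞 K, IntermediateField.adjoin ℚ {(α : K)} = ⊤ := by
  obtain ⟨α₀, h₀⟩ := Field.exists_primitive_element ℚ K
  have halg : IsAlgebraic ℤ α₀ :=
    (IsFractionRing.isAlgebraic_iff ℤ ℚ K).mpr (Algebra.IsAlgebraic.isAlgebraic α₀)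
  obtain ⟨y, hy0, hy⟩ := halg.exists_integral_multiple
  refine ⟨⟨y • α₀, hy⟩, ?_⟩
  rw [eq_top_iff, ← h₀, IntermediateField.adjoin_simple_le_iff]
  have h1 : α₀ = ((y : ℚ)⁻¹) • (y • α₀) := by
    rw [zsmul_eq_mul, Algebra.smul_def, ← mul_assoc, map_inv₀, map_intCast,
      inv_mul_cancel₀ (by exact_mod_cast hy0), one_mul]
  have h2 := IntermediateField.smul_mem (IntermediateField.adjoin ℚ {y • α₀}) (x := (y : ℚ)⁻¹)
    (IntermediateField.mem_adjoin_simple_self ℚ (y • α₀))
  rw [← h1] at h2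
  exact h2

variable (K) in
/-- The comparison, first part: for almost all `ℓ`, reductions of embeddings are distinct and
exhaust the homomorphisms to the residue field. -/
theorem redEmb_bijective : ∃ m : ℤ, m ≠ 0 ∧ ∀ ℓ : ℕ, ℓ.Prime → ¬ (ℓ : ℤ) ∣ m →
    ∀ A : ValuationSubring Qbar, A.LiesOverPrime ℓ →
      Function.Bijective (redEmb (K := K) A) := by
  classical
  obtain ⟨α, hα⟩ := exists_integral_primitive K
  have hext : ∀ ι ι' : K →ₐ[ℚ] Qbar, ι (α : K) = ι' (α : K) → ι = ι' := by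
    intro ι ι' h
    have h1 : (⊤ : IntermediateField ℚ K) ≤ IntermediateField.adjoin ℚ {(α : K)} := hα.ge
    ext x
    have hx : x ∈ IntermediateField.adjoin ℚ {(α : K)} := h1 trivial
    have hx' : x ∈ Algebra.adjoin ℚ {(α : K)} := by
      rw [← IntermediateField.mem_toSubalgebra,
        IntermediateField.adjoin_simple_toSubalgebra_of_isAlgebraic] at hx
      · exact hx
      · exact Algebra.IsAlgebraic.isAlgebraic _
    obtain ⟨p, rfl⟩ := (Algebra.adjoin_singleton_eq_range_aeval ℚ (α : K)) ▸ hx'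
    show ι (aeval (α : K) p) = ι' (aeval (α : K) p)
    rw [← Polynomial.aeval_algHom_apply, ← Polynomial.aeval_algHom_apply, h]
  have hαint : IsIntegral ℤ (α : K) := α.2
  -- differences of conjugates
  have hβ : ∀ p : (K →ₐ[ℚ] Qbar) × (K →ₐ[ℚ] Qbar), ∃ y : ℤ, y ≠ 0 ∧ (p.1 ≠ p.2 →
      ∀ (ℓ : ℕ), ℓ.Prime → ¬ (ℓ : ℤ) ∣ y →
      ∀ A : ValuationSubring Qbar, A.LiesOverPrime ℓ →
        A.valuation (p.1 (α : K) - p.2 (α : K)) = 1) := by
    intro p
    by_cases hp : p.1 = p.2
    · exact ⟨1, one_ne_zero, fun h => absurd hp h⟩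
    · have h0 : p.1 (α : K) - p.2 (α : K) ≠ 0 := fun h => hp (hext _ _ (sub_eq_zero.mp h))
      obtain ⟨y, hy0, hy⟩ := exists_int_valuation_eq_one h0
        ((hαint.map (p.1.restrictScalars ℤ)).sub (hαint.map (p.2.restrictScalars ℤ)))
      exact ⟨y, hy0, fun _ => hy⟩
  choose y hy0 hy using hβ
  -- the discriminant
  let B : PowerBasis ℚ K := (IntermediateField.adjoin.powerBasis
    (Algebra.IsIntegral.isIntegral (R := ℚ) (α : K))).map
      ((IntermediateField.equivOfEq hα).trans IntermediateField.topEquiv)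
  have hB : B.gen = (α : K) := by
    simp [B]
  have hBint : IsIntegral ℤ B.gen := hB ▸ hαint
  have hdint : IsIntegral ℤ (Algebra.discr ℚ B.basis) := by
    apply Algebra.discr_isIntegral
    intro i
    rw [PowerBasis.basis_eq_pow]
    exact hBint.pow _
  obtain ⟨D, hD⟩ := IsIntegrallyClosed.isIntegral_iff.mp hdint
  have hD0 : D ≠ 0 := by
    rintro rfl
    rw [map_zero] at hD
    exact Algebra.discr_not_zero_of_basis ℚ B.basis hD.symm
  have hadj : ∀ x : 𝓞 K, ∃ p : ℤ[X], (D : 𝓞 K) * x = aeval α p := by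
    intro x
    have h1 := Algebra.discr_mul_isIntegral_mem_adjoin (R := ℤ) ℚ hBint (z := (x : K)) x.2
    rw [hB, ← hD, Algebra.adjoin_singleton_eq_range_aeval] at h1
    obtain ⟨p, hp⟩ := h1
    refine ⟨p, ?_⟩
    apply RingOfIntegers.coe_injective
    have h2 : algebraMap (𝓞 K) K (aeval α p) = aeval (α : K) p :=
      (Polynomial.aeval_algebraMap_apply K α p).symm
    rw [h2]
    have h3 : (aeval (α : K)) p = (algebraMap ℤ ℚ D) • (x : K) := hp
    rw [h3, map_mul, Algebra.smul_def]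
    simp
  refine ⟨D * ∏ p, y p, mul_ne_zero hD0 (Finset.prod_ne_zero_iff.mpr fun p _ => hy0 p), ?_⟩
  intro ℓ hℓ hℓm A hA
  have hℓD : ¬ (ℓ : ℤ) ∣ D := fun h => hℓm (h.mul_right _)
  have hℓy : ∀ p, ¬ (ℓ : ℤ) ∣ y p := fun p h =>
    hℓm ((h.trans (Finset.dvd_prod_of_mem y (Finset.mem_univ p))).mul_left _)
  haveI := charP_residueField A hℓ hA
  have hDk : (D : IsLocalRing.ResidueField A) ≠ 0 := by
    rw [Ne, CharP.intCast_eq_zero_iff _ ℓ]; exact hℓD
  -- a homomorphism is determined by the image of `α`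
  have hdet : ∀ ψ ψ' : 𝓞 K →+* IsLocalRing.ResidueField A, ψ α = ψ' α → ψ = ψ' := by
    intro ψ ψ' h
    ext x
    obtain ⟨p, hp⟩ := hadj x
    have h1 : ∀ φ : 𝓞 K →+* IsLocalRing.ResidueField A,
        (D : IsLocalRing.ResidueField A) * φ x = p.eval₂ (Int.castRingHom _) (φ α) := by
      intro φ
      have h2 := congrArg φ hp
      rw [map_mul, map_intCast, Polynomial.aeval_def, Polynomial.hom_eval₂] at h2
      rw [h2]
      congr 1
      exact Subsingleton.elim _ _
    have h3 := (h1 ψ).trans ((h ▸ (h1 ψ').symm : _ = _))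
    exact mul_left_cancel₀ hDk h3
  constructor
  · intro ι ι' h
    by_contra hne
    have h1 : redEmb A ι α = redEmb A ι' α := by rw [h]
    have h2 := (residue_eq_iff A (toVal A ι α) (toVal A ι' α)).mp h1
    rw [coe_toVal, coe_toVal, hy (ι, ι') hne ℓ hℓ (hℓy _) A hA] at h2
    exact lt_irrefl _ h2
  · intro ψ
    obtain ⟨z, hz⟩ := IsLocalRing.residue_surjective (ψ α)
    -- evaluate the minimal polynomial at `z`
    set f : ℤ[X] := minpoly ℤ (α : K) with hf
    have hfα : aeval α f = 0 := by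
      apply RingOfIntegers.coe_injective
      have h2 : algebraMap (𝓞 K) K (aeval α f) = aeval (α : K) f :=
        (Polynomial.aeval_algebraMap_apply K α f).symm
      rw [h2, hf, minpoly.aeval, map_zero]
    have hfz : IsLocalRing.residue A (aeval z f) = 0 := by
      have h2 := congrArg ψ hfα
      rw [map_zero, Polynomial.aeval_def, Polynomial.hom_eval₂] at h2
      rw [Polynomial.aeval_def, Polynomial.hom_eval₂, hz, ← h2]
      congr 1
      exact Subsingleton.elim _ _
    have hfz' : A.valuation (aeval (z : Qbar) f) < 1 := by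
      have h3 := (residue_eq_iff A (aeval z f) 0).mp (by rw [hfz, map_zero])
      have h4 : ((aeval z f : A) : Qbar) = aeval (z : Qbar) f :=
        (Polynomial.aeval_algebraMap_apply Qbar z f).symm
      rw [h4] at h3
      simpa using h3
    -- factorisation
    set g : ℚ[X] := minpoly ℚ (α : K) with hg
    have hgf : g = f.map (algebraMap ℤ ℚ) :=
      minpoly.isIntegrallyClosed_eq_field_fractions' ℚ hαint
    have hsplit : (g.map (algebraMap ℚ Qbar)).Splits := IsAlgClosed.splits _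
    have hmonic : (g.map (algebraMap ℚ Qbar)).Monic :=
      (minpoly.monic (Algebra.IsIntegral.isIntegral (R := ℚ) (α : K))).map _
    have hprod : aeval (z : Qbar) f
        = ((g.map (algebraMap ℚ Qbar)).roots.map fun r => (z : Qbar) - r).prod := by
      have h5 : aeval (z : Qbar) f = (g.map (algebraMap ℚ Qbar)).eval (z : Qbar) := by
        rw [hgf, Polynomial.map_map, Polynomial.aeval_def, Polynomial.eval_map]
        congr 1
      rw [h5]
      conv_lhs => rw [hsplit.eq_prod_roots_of_monic hmonic]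
      rw [Polynomial.eval_multiset_prod, Multiset.map_map]
      simp
    have hex : ∃ r ∈ (g.map (algebraMap ℚ Qbar)).roots, A.valuation ((z : Qbar) - r) < 1 := by
      by_contra hall
      push Not at hall
      rw [hprod, map_multiset_prod, Multiset.map_map] at hfz'
      have h6 : (1 : A.ValueGroup) ≤ ((g.map (algebraMap ℚ Qbar)).roots.map
          (A.valuation ∘ fun r => (z : Qbar) - r)).prod := by
        apply Multiset.one_le_prod_of_one_le
        intro w hw
        obtain ⟨r, hr, rfl⟩ := Multiset.mem_map.mp hw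
        exact hall r hr
      exact absurd hfz' (not_lt.mpr h6)
    obtain ⟨r, hr, hzr⟩ := hex
    have hr' : r ∈ g.rootSet Qbar := by
      rw [Polynomial.rootSet, Finset.mem_coe, Multiset.mem_toFinset]
      exact hr
    rw [hg, ← Algebra.IsAlgebraic.range_eval_eq_rootSet_minpoly (F := ℚ) Qbar (α : K)] at hr'
    obtain ⟨ι, rfl⟩ := hr'
    refine ⟨ι, hdet _ _ ?_⟩
    rw [← hz]
    have h7 := (residue_eq_iff A z (toVal A ι α)).mpr (by rw [coe_toVal]; exact hzr)
    exact h7.symm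

variable (K) in
/-- **Main comparison**: for almost all primes `ℓ`, the number of ideals of norm `ℓ` in `𝓞 K` is
the number of embeddings `K → Qbar` fixed by a Frobenius element at `ℓ`. -/
theorem cnt_eq_card_fixed : ∃ m : ℤ, m ≠ 0 ∧ ∀ ℓ : ℕ, ℓ.Prime → ¬ (ℓ : ℤ) ∣ m →
    ∀ A : ValuationSubring Qbar, A.LiesOverPrime ℓ → ∀ τ : Qbar ≃ₐ[ℚ] Qbar,
      A.IsFrobeniusAt τ ℓ →
        cnt K ℓ = Nat.card {ι : K →ₐ[ℚ] Qbar // (τ : Qbar →ₐ[ℚ] Qbar).comp ι = ι} := by
  obtain ⟨m, hm0, hm⟩ := redEmb_bijective K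
  refine ⟨m, hm0, fun ℓ hℓ hℓm A hA τ hτ => ?_⟩
  haveI : Fact ℓ.Prime := ⟨hℓ⟩
  haveI := charP_residueField A hℓ hA
  have hbij := hm ℓ hℓ hℓm A hA
  rw [cnt_eq_card_ringHom K ℓ]
  let c : ZMod ℓ →+* IsLocalRing.ResidueField A := ZMod.castHom (dvd_refl ℓ) _
  -- fixed embeddings are those whose reduction takes values in the prime field
  have hfix : ∀ ι : K →ₐ[ℚ] Qbar, (τ : Qbar →ₐ[ℚ] Qbar).comp ι = ι ↔
      ∀ x, (redEmb A ι x) ^ ℓ = redEmb A ι x := by
    intro ι
    constructor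
    · intro h x
      rw [← redEmb_frob hτ, h]
    · intro h
      apply hbij.1
      ext x
      rw [redEmb_frob hτ, h]
  symm
  have hlift : ∀ ι : {ι : K →ₐ[ℚ] Qbar // (τ : Qbar →ₐ[ℚ] Qbar).comp ι = ι},
      ∃ φ : 𝓞 K →+* ZMod ℓ, c.comp φ = redEmb A ι.1 := by
    intro ι
    have h := (hfix ι.1).mp ι.2
    have h' : ∀ x, ∃ n : ZMod ℓ, c n = redEmb A ι.1 x := fun x => exists_int_of_pow_eq hℓ (h x)
    choose φ hφ using h'
    have hc : Function.Injective c := c.injective
    exact ⟨{ toFun := φ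
             map_one' := hc (by rw [hφ, map_one, map_one])
             map_mul' := fun x y => hc (by rw [hφ, map_mul, map_mul, hφ, hφ])
             map_zero' := hc (by rw [hφ, map_zero, map_zero])
             map_add' := fun x y => hc (by rw [hφ, map_add, map_add, hφ, hφ]) },
      RingHom.ext hφ⟩
  choose Φ hΦ using hlift
  refine Nat.card_congr (Equiv.ofBijective Φ ⟨?_, ?_⟩)
  · intro ι ι' h
    apply Subtype.ext
    apply hbij.1
    rw [← hΦ, ← hΦ, h]
  · intro φ
    obtain ⟨ι, hι⟩ := hbij.2 (c.comp φ)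
    have hιfix : (τ : Qbar →ₐ[ℚ] Qbar).comp ι = ι := by
      rw [hfix]
      intro x
      rw [hι, RingHom.comp_apply, ← map_pow, ZMod.pow_card]
    refine ⟨⟨ι, hιfix⟩, ?_⟩
    have h1 := hΦ ⟨ι, hιfix⟩
    rw [hι] at h1
    ext x
    apply c.injective
    exact RingHom.congr_fun h1 x

end Fermat.Agent.FrobDens
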