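import Fermat.Agent.FrobDens.IdealCount

set_option autoImplicit false

/-!
# `∑_ℓ a_K(ℓ) ℓ^{-s} = -log (s-1) + O(1)` as `s → 1⁺`
-/

namespace Fermat.Agent.FrobDens

open NumberField Ideal Filter Topology

variable (K : Type*) [Field K] [NumberField K]

/-- the terms of the Dedekind zeta series at a real point -/
noncomputable def zterm (s : ℝ) (n : ℕ) : ℝ := cnt K n * (n : ℝ) ^ (-s)

lemma zterm_nonneg (s : ℝ) (n : ℕ) : 0 ≤ zterm K s n :=
  mul_nonneg (Nat.cast_nonneg _) (Real.rpow_nonneg (Nat.cast_nonneg _) _)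

lemma zterm_zero (s : ℝ) : zterm K s 0 = 0 := by simp [zterm, cnt_zero]

lemma zterm_one (s : ℝ) : zterm K s 1 = 1 := by simp [zterm, cnt_one]

lemma zterm_mul (s : ℝ) {m n : ℕ} (h : m.Coprime n) :
    zterm K s (m * n) = zterm K s m * zterm K s n := by
  unfold zterm
  rw [cnt_mul h, Nat.cast_mul, Nat.cast_mul, Real.mul_rpow (Nat.cast_nonneg _) (Nat.cast_nonneg _)]
  ring

lemma term_eq (s : ℝ) (n : ℕ) :
    LSeries.term (fun n ↦ (Nat.card {I : Ideal (𝓞 K) // absNorm I = n} : ℂ)) s n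
      = ((zterm K s n : ℝ) : ℂ) := by
  rcases eq_or_ne n 0 with rfl | hn
  · simp [zterm_zero]
  · rw [LSeries.term_of_ne_zero hn, zterm, cnt_of_ne_zero hn, Real.rpow_neg (Nat.cast_nonneg _)]
    push_cast
    rw [Complex.ofReal_cpow (Nat.cast_nonneg _)]
    push_cast
    rw [div_eq_mul_inv]

lemma dedekindZeta_eq (s : ℝ) : dedekindZeta K s = ((∑' n, zterm K s n : ℝ) : ℂ) := by
  rw [dedekindZeta, LSeries, Complex.ofReal_tsum]
  exact tsum_congr fun n => term_eq K s n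

lemma summable_zterm {s : ℝ} (hs : 1 < s) : Summable (zterm K s) := by
  by_contra hns
  have hns' : ∀ t : ℝ, t < s → ¬ Summable (zterm K t) := by
    intro t hts hsum
    apply hns
    refine Summable.of_nonneg_of_le (zterm_nonneg K s) (fun n => ?_) hsum
    unfold zterm
    rcases Nat.eq_zero_or_pos n with rfl | hn
    · simp [cnt_zero]
    · refine mul_le_mul_of_nonneg_left ?_ (Nat.cast_nonneg _)
      exact Real.rpow_le_rpow_of_exponent_le (by exact_mod_cast hn) (by linarith)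
  have h0 : ∀ t : ℝ, t < s → dedekindZeta K t = 0 := by
    intro t ht
    rw [dedekindZeta_eq, tsum_eq_zero_of_not_summable (hns' t ht), Complex.ofReal_zero]
  have h1 := tendsto_sub_one_mul_dedekindZeta_nhdsGT K
  have h2 : Tendsto (fun t : ℝ ↦ ((t : ℂ) - 1) * dedekindZeta K t) (𝓝[>] 1) (𝓝 0) := by
    refine tendsto_nhds_of_eventually_eq ?_
    filter_upwards [Ioo_mem_nhdsGT hs] with t ht
    rw [h0 t ht.2, mul_zero]
  have h3 := tendsto_nhds_unique h1 h2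
  exact dedekindZeta_residue_ne_zero K (by exact_mod_cast h3)

/-- the zeta value -/
noncomputable def zval (s : ℝ) : ℝ := ∑' n, zterm K s n

lemma one_le_zval {s : ℝ} (hs : 1 < s) : 1 ≤ zval K s := by
  have h := (summable_zterm K hs).le_tsum 1 (fun n _ => zterm_nonneg K s n)
  rwa [zterm_one] at h

lemma tendsto_zval :
    Tendsto (fun s : ℝ => (s - 1) * zval K s) (𝓝[>] 1) (𝓝 (dedekindZeta_residue K)) := by
  have h1 := tendsto_sub_one_mul_dedekindZeta_nhdsGT K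
  have h2 : (fun s : ℝ ↦ ((s : ℂ) - 1) * dedekindZeta K s)
      = fun s : ℝ => (((s - 1) * zval K s : ℝ) : ℂ) := by
    funext s
    rw [dedekindZeta_eq, zval]
    push_cast
    rfl
  rw [h2] at h1
  exact (Complex.continuous_re.tendsto _).comp h1

/-- `log ζ_K(s) + log (s-1)` is bounded near `1⁺`. -/
lemma exists_bound_log_zval :
    ∃ C : ℝ, ∀ᶠ s in 𝓝[>] (1 : ℝ), |Real.log (zval K s) + Real.log (s - 1)| ≤ C := by
  have hρ := dedekindZeta_residue_pos K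
  have h1 := (Real.continuousAt_log hρ.ne').tendsto.comp (tendsto_zval K)
  have h2 : ∀ᶠ s in 𝓝[>] (1 : ℝ), |Real.log ((s - 1) * zval K s)|
      ≤ |Real.log (dedekindZeta_residue K)| + 1 := by
    have h3 := (h1.abs).eventually (eventually_le_nhds
      (lt_add_one |Real.log (dedekindZeta_residue K)|))
    exact h3
  refine ⟨|Real.log (dedekindZeta_residue K)| + 1, ?_⟩
  filter_upwards [h2, self_mem_nhdsWithin] with s hs hs1
  have hs1' : 0 < s - 1 := sub_pos.mpr hs1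
  have hz : 0 < zval K s := lt_of_lt_of_le one_pos (one_le_zval K hs1)
  rwa [Real.log_mul hs1'.ne' hz.ne', add_comm] at hs

/-- local Euler factor -/
noncomputable def efac (s : ℝ) (ℓ : ℕ) : ℝ := ∑' e, zterm K s (ℓ ^ e)

lemma hasProd_efac {s : ℝ} (hs : 1 < s) :
    HasProd (fun ℓ : Nat.Primes => efac K s ℓ) (zval K s) := by
  have hsum : Summable (fun n => ‖zterm K s n‖) := (summable_zterm K hs).norm
  exact EulerProduct.eulerProduct_hasProd (zterm_one K s) (fun h => zterm_mul K s h) hsum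
    (zterm_zero K s)

lemma summable_zterm_pow {s : ℝ} (hs : 1 < s) {ℓ : ℕ} (hℓ : ℓ.Prime) :
    Summable (fun e => zterm K s (ℓ ^ e)) :=
  (summable_zterm K hs).comp_injective (Nat.pow_right_injective hℓ.two_le)

/-- bound for the local terms -/
lemma zterm_pow_le {s : ℝ} (hs : 1 < s) {ℓ : ℕ} (hℓ : ℓ.Prime) (e : ℕ) :
    zterm K s (ℓ ^ e) ≤ ((e : ℝ) + 1) ^ Module.finrank ℚ K * ((ℓ : ℝ) ^ e)⁻¹ := by
  unfold zterm
  have h1 : (cnt K (ℓ ^ e) : ℝ) ≤ ((e : ℝ) + 1) ^ Module.finrank ℚ K := by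
    exact_mod_cast cnt_prime_pow_le hℓ e
  have hℓ1 : (1 : ℝ) ≤ (ℓ : ℝ) ^ e := one_le_pow₀ (by exact_mod_cast hℓ.one_lt.le)
  have h2 : (((ℓ ^ e : ℕ) : ℝ)) ^ (-s) ≤ ((ℓ : ℝ) ^ e)⁻¹ := by
    push_cast
    rw [← Real.rpow_neg_one ((ℓ : ℝ) ^ e)]
    exact Real.rpow_le_rpow_of_exponent_le hℓ1 (by linarith)
  exact mul_le_mul h1 h2 (Real.rpow_nonneg (Nat.cast_nonneg _) _) (by positivity)

lemma summable_poly_geom (d : ℕ) : Summable (fun e : ℕ => ((e : ℝ) + 3) ^ d * ((2 : ℝ) ^ e)⁻¹) := by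
  have h1 : Summable (fun e : ℕ => ((e : ℝ) ^ d) * ((1 / 2 : ℝ) ^ e)) :=
    summable_pow_mul_geometric_of_norm_lt_one d (by norm_num)
  have h2 : Summable (fun e : ℕ => (((e + 3 : ℕ) : ℝ) ^ d) * ((1 / 2 : ℝ) ^ (e + 3))) :=
    h1.comp_injective (add_left_injective 3)
  have h3 := h2.mul_left 8
  refine h3.congr fun e => ?_
  push_cast
  rw [pow_add, one_div, inv_pow]
  ring

/-- the constant in the local estimates -/
noncomputable def locC (d : ℕ) : ℝ := ∑' e : ℕ, ((e : ℝ) + 3) ^ d * ((2 : ℝ) ^ e)⁻¹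

lemma locC_nonneg (d : ℕ) : 0 ≤ locC d := tsum_nonneg fun _ => by positivity

lemma tsum_tail_le {s : ℝ} (hs : 1 < s) {ℓ : ℕ} (hℓ : ℓ.Prime) :
    ∑' e, zterm K s (ℓ ^ (e + 2)) ≤ locC (Module.finrank ℚ K) * ((ℓ : ℝ) ^ 2)⁻¹ := by
  rw [locC, ← tsum_mul_right]
  have hs1 : Summable (fun e => zterm K s (ℓ ^ (e + 2))) :=
    (summable_zterm_pow K hs hℓ).comp_injective (add_left_injective 2)
  refine Summable.tsum_le_tsum (fun e => ?_) hs1 ((summable_poly_geom _).mul_right _)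
  refine (zterm_pow_le K hs hℓ (e + 2)).trans ?_
  have h2 : (2 : ℝ) ≤ ℓ := by exact_mod_cast hℓ.two_le
  push_cast
  have h3 : ((ℓ : ℝ) ^ (e + 2))⁻¹ ≤ ((2 : ℝ) ^ e)⁻¹ * ((ℓ : ℝ) ^ 2)⁻¹ := by
    rw [pow_add, mul_inv]
    refine mul_le_mul_of_nonneg_right ?_ (by positivity)
    exact inv_anti₀ (by positivity) (pow_le_pow_left₀ (by norm_num) h2 e)
  rw [mul_assoc]
  have h4 : ((e : ℝ) + 2 + 1) = (e : ℝ) + 3 := by ring
  rw [h4]
  exact mul_le_mul_of_nonneg_left h3 (by positivity)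

lemma efac_eq {s : ℝ} (hs : 1 < s) {ℓ : ℕ} (hℓ : ℓ.Prime) :
    efac K s ℓ = 1 + (zterm K s ℓ + ∑' e, zterm K s (ℓ ^ (e + 2))) := by
  have h := (summable_zterm_pow K hs hℓ).sum_add_tsum_nat_add 2
  rw [efac, ← h, Finset.sum_range_succ, Finset.sum_range_one, pow_zero, pow_one, zterm_one,
    add_assoc]

lemma log_one_add_ge {x : ℝ} (hx : 0 ≤ x) : x - x ^ 2 ≤ Real.log (1 + x) := by
  have h1 : 1 - (1 + x)⁻¹ ≤ Real.log (1 + x) := Real.one_sub_inv_le_log_of_pos (by positivity)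
  have h2 : x - x ^ 2 ≤ 1 - (1 + x)⁻¹ := by
    have h3 : (0 : ℝ) < 1 + x := by positivity
    rw [← sub_nonneg]
    have : 1 - (1 + x)⁻¹ - (x - x ^ 2) = x ^ 3 / (1 + x) := by field_simp; ring
    rw [this]; positivity
  exact h2.trans h1

/-- local estimate -/
lemma abs_log_efac_sub_le {s : ℝ} (hs : 1 < s) {ℓ : ℕ} (hℓ : ℓ.Prime) :
    |Real.log (efac K s ℓ) - zterm K s ℓ| ≤
      (locC (Module.finrank ℚ K) + (2 ^ Module.finrank ℚ K + locC (Module.finrank ℚ K)) ^ 2)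
        * ((ℓ : ℝ) ^ 2)⁻¹ := by
  set d := Module.finrank ℚ K
  set R := ∑' e, zterm K s (ℓ ^ (e + 2)) with hR
  have hR0 : 0 ≤ R := tsum_nonneg fun _ => zterm_nonneg K s _
  have hR1 : R ≤ locC d * ((ℓ : ℝ) ^ 2)⁻¹ := tsum_tail_le K hs hℓ
  have ht0 : 0 ≤ zterm K s ℓ := zterm_nonneg K s _
  have ht1 : zterm K s ℓ ≤ 2 ^ d * (ℓ : ℝ)⁻¹ := by
    have := zterm_pow_le K hs hℓ 1
    simpa [one_add_one_eq_two] using this
  have hℓ2 : (2 : ℝ) ≤ ℓ := by exact_mod_cast hℓ.two_le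
  have hℓinv : ((ℓ : ℝ) ^ 2)⁻¹ ≤ (ℓ : ℝ)⁻¹ := by
    apply inv_anti₀ (by positivity); nlinarith
  set x := zterm K s ℓ + R with hx
  have hx0 : 0 ≤ x := add_nonneg ht0 hR0
  have hx1 : x ≤ (2 ^ d + locC d) * (ℓ : ℝ)⁻¹ := by
    have : R ≤ locC d * (ℓ : ℝ)⁻¹ := hR1.trans (mul_le_mul_of_nonneg_left hℓinv (locC_nonneg d))
    rw [hx, add_mul]; exact add_le_add ht1 this
  have hx2 : x ^ 2 ≤ (2 ^ d + locC d) ^ 2 * ((ℓ : ℝ) ^ 2)⁻¹ := by
    have := pow_le_pow_left₀ hx0 hx1 2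
    rwa [mul_pow, inv_pow] at this
  rw [efac_eq K hs hℓ, ← hR, ← hx]
  have hup : Real.log (1 + x) ≤ x := by
    have := Real.log_le_sub_one_of_pos (show (0 : ℝ) < 1 + x by positivity)
    linarith
  have hlow := log_one_add_ge hx0
  rw [abs_le]
  have hC := locC_nonneg d
  have hinv : 0 ≤ ((ℓ : ℝ) ^ 2)⁻¹ := by positivity
  constructor
  · have : 0 ≤ locC d * ((ℓ : ℝ) ^ 2)⁻¹ := mul_nonneg hC hinv
    nlinarith
  · nlinarith [sq_nonneg (2 ^ d + locC d)]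

/-- `P_K(s) = ∑_ℓ a_K(ℓ) ℓ^{-s}` -/
noncomputable def psum (s : ℝ) : ℝ := ∑' ℓ : Nat.Primes, zterm K s ℓ

lemma summable_zterm_primes {s : ℝ} (hs : 1 < s) :
    Summable (fun ℓ : Nat.Primes => zterm K s ℓ) :=
  (summable_zterm K hs).comp_injective Subtype.val_injective

lemma summable_inv_sq_primes : Summable (fun ℓ : Nat.Primes => (((ℓ : ℕ) : ℝ) ^ 2)⁻¹) :=
  (Real.summable_nat_pow_inv.mpr (by norm_num : 1 < 2)).comp_injective Subtype.val_injective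

lemma exists_bound_log_zval_sub_psum :
    ∃ C : ℝ, ∀ s : ℝ, 1 < s → |Real.log (zval K s) - psum K s| ≤ C := by
  set c := (locC (Module.finrank ℚ K) +
    (2 ^ Module.finrank ℚ K + locC (Module.finrank ℚ K)) ^ 2) with hc
  refine ⟨∑' ℓ : Nat.Primes, c * (((ℓ : ℕ) : ℝ) ^ 2)⁻¹, fun s hs => ?_⟩
  have hcs : Summable (fun ℓ : Nat.Primes => c * (((ℓ : ℕ) : ℝ) ^ 2)⁻¹) :=
    summable_inv_sq_primes.mul_left c
  have hb : ∀ ℓ : Nat.Primes, ‖Real.log (efac K s ℓ) - zterm K s ℓ‖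
      ≤ c * (((ℓ : ℕ) : ℝ) ^ 2)⁻¹ := fun ℓ => abs_log_efac_sub_le K hs ℓ.2
  have hd : Summable (fun ℓ : Nat.Primes => Real.log (efac K s ℓ) - zterm K s ℓ) :=
    Summable.of_norm_bounded hcs hb
  have hlog : Summable (fun ℓ : Nat.Primes => Real.log (efac K s ℓ)) := by
    have := hd.add (summable_zterm_primes K hs)
    simpa using this
  have hpos : ∀ ℓ : Nat.Primes, 0 < efac K s ℓ := fun ℓ => by
    rw [efac_eq K hs ℓ.2]
    have h1 : 0 ≤ zterm K s ℓ := zterm_nonneg K s _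
    have h2 : 0 ≤ ∑' e, zterm K s ((ℓ : ℕ) ^ (e + 2)) := tsum_nonneg fun _ => zterm_nonneg K s _
    positivity
  have hlogz : Real.log (zval K s) = ∑' ℓ : Nat.Primes, Real.log (efac K s ℓ) := by
    have h1 := Real.rexp_tsum_eq_tprod hpos hlog
    rw [(hasProd_efac K hs).tprod_eq] at h1
    rw [← h1, Real.log_exp]
  rw [hlogz, psum, ← hlog.tsum_sub (summable_zterm_primes K hs)]
  exact tsum_of_norm_bounded hcs.hasSum hb

/-- main output: `∑_ℓ a_K(ℓ) ℓ^{-s} + log(s-1)` is bounded near `1⁺`. -/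
theorem exists_bound_psum :
    ∃ C : ℝ, ∀ᶠ s in 𝓝[>] (1 : ℝ), |psum K s + Real.log (s - 1)| ≤ C := by
  obtain ⟨C₁, h₁⟩ := exists_bound_log_zval K
  obtain ⟨C₂, h₂⟩ := exists_bound_log_zval_sub_psum K
  refine ⟨C₁ + C₂, ?_⟩
  filter_upwards [h₁, self_mem_nhdsWithin] with s hs hs1
  have h3 := h₂ s hs1
  rw [abs_le] at *
  constructor <;> linarith [hs.1, hs.2, h3.1, h3.2]

end Fermat.Agent.FrobDens
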