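import Fermat.Agent.FrobDens.Fixed

set_option autoImplicit false

/-!
# Frobenius density theorem
-/

namespace Fermat.Agent.FrobDens

open NumberField Filter Topology Asymptotics

local notation "Qbar" => AlgebraicClosure ℚ

section Count

variable (L : IntermediateField ℚ Qbar) [FiniteDimensional ℚ L] [IsGalois ℚ L]

/-- restriction to a normal subfield -/
noncomputable def res (τ : Qbar ≃ₐ[ℚ] Qbar) : L ≃ₐ[ℚ] L := AlgEquiv.restrictNormal τ L

variable {L}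

lemma coe_res (τ : Qbar ≃ₐ[ℚ] Qbar) (x : L) : ((res L τ x : L) : Qbar) = τ (x : Qbar) :=
  AlgEquiv.restrictNormal_commutes τ L x

lemma res_mul (σ τ : Qbar ≃ₐ[ℚ] Qbar) : res L (σ * τ) = res L σ * res L τ := by
  ext x
  rw [coe_res, AlgEquiv.mul_apply, AlgEquiv.mul_apply, coe_res, coe_res]

lemma res_one : res L 1 = 1 := by
  ext x
  rw [coe_res, AlgEquiv.one_apply, AlgEquiv.one_apply]

variable (L) in
/-- restriction as a homomorphism -/
noncomputable def resHom : (Qbar ≃ₐ[ℚ] Qbar) →* (L ≃ₐ[ℚ] L) where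
  toFun := res L
  map_one' := res_one
  map_mul' := res_mul

lemma resHom_apply (τ : Qbar ≃ₐ[ℚ] Qbar) : resHom L τ = res L τ := rfl

/-- the embedding of a fixed field attached to a Galois element -/
noncomputable def embOf (C : Subgroup (L ≃ₐ[ℚ] L)) (g : L ≃ₐ[ℚ] L) :
    (IntermediateField.fixedField C) →ₐ[ℚ] Qbar :=
  (L.val.comp (g : L →ₐ[ℚ] L)).comp (IntermediateField.fixedField C).val

lemma embOf_apply (C : Subgroup (L ≃ₐ[ℚ] L)) (g : L ≃ₐ[ℚ] L) (x : IntermediateField.fixedField C) :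
    embOf C g x = ((g (x : L) : L) : Qbar) := rfl

lemma embOf_surjective (C : Subgroup (L ≃ₐ[ℚ] L)) : Function.Surjective (embOf C) := by
  intro ι
  obtain ⟨φ, hφ⟩ := IsAlgClosed.surjective_domRestrict_of_isAlgebraic (K := ℚ)
    (L := IntermediateField.fixedField C) (E := L) (M := Qbar) ι
  refine ⟨Normal.algHomEquivAut ℚ Qbar L φ, ?_⟩
  ext x
  rw [embOf_apply, ← hφ]
  have h1 := AlgHom.restrictNormal_commutes (F := ℚ) (K₁ := L) (K₂ := Qbar) φ L (x : L)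
  exact h1

lemma embOf_eq_iff (C : Subgroup (L ≃ₐ[ℚ] L)) (g g' : L ≃ₐ[ℚ] L) :
    embOf C g = embOf C g' ↔ g⁻¹ * g' ∈ C := by
  conv_rhs => rw [← IntermediateField.fixingSubgroup_fixedField C]
  rw [IntermediateField.mem_fixingSubgroup_iff]
  constructor
  · intro h x hx
    have h1 := DFunLike.congr_fun h ⟨x, hx⟩
    rw [embOf_apply, embOf_apply] at h1
    have h2 : g x = g' x := Subtype.ext h1
    rw [AlgEquiv.mul_apply, ← h2]
    exact g.symm_apply_apply x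
  · intro h
    ext x
    rw [embOf_apply, embOf_apply]
    have h1 := h (x : L) x.2
    rw [AlgEquiv.mul_apply] at h1
    have h2 := congrArg g h1
    rw [show g (g⁻¹ (g' (x : L))) = g' (x : L) from g.apply_symm_apply _] at h2
    rw [h2]

lemma comp_embOf (C : Subgroup (L ≃ₐ[ℚ] L)) (τ : Qbar ≃ₐ[ℚ] Qbar) (g : L ≃ₐ[ℚ] L) :
    (τ : Qbar →ₐ[ℚ] Qbar).comp (embOf C g) = embOf C (res L τ * g) := by
  ext x
  rw [embOf_apply, AlgEquiv.mul_apply, coe_res]
  rfl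

lemma card_conj_mem (C : Subgroup (L ≃ₐ[ℚ] L)) (τ : Qbar ≃ₐ[ℚ] Qbar) :
    Nat.card {g : L ≃ₐ[ℚ] L // g⁻¹ * res L τ * g ∈ C} =
      Nat.card {ι : (IntermediateField.fixedField C) →ₐ[ℚ] Qbar //
        (τ : Qbar →ₐ[ℚ] Qbar).comp ι = ι} * Nat.card C := by
  have hfix : ∀ g : L ≃ₐ[ℚ] L, (τ : Qbar →ₐ[ℚ] Qbar).comp (embOf C g) = embOf C g ↔
      g⁻¹ * res L τ * g ∈ C := by
    intro g
    rw [comp_embOf, eq_comm, embOf_eq_iff, mul_assoc]
  choose s hs using embOf_surjective C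
  rw [← Nat.card_prod]
  symm
  refine Nat.card_congr (Equiv.ofBijective (fun p : {ι : (IntermediateField.fixedField C) →ₐ[ℚ] Qbar //
        (τ : Qbar →ₐ[ℚ] Qbar).comp ι = ι} × C => (⟨s p.1.1 * p.2, ?_⟩ :
          {g : L ≃ₐ[ℚ] L // g⁻¹ * res L τ * g ∈ C})) ⟨?_, ?_⟩)
  · rw [← hfix]
    have h1 : embOf C (s p.1.1 * p.2) = p.1.1 := by
      rw [← hs p.1.1]
      conv_lhs => rw [hs p.1.1]
      rw [embOf_eq_iff]
      simp
    rw [h1]
    exact p.1.2
  · rintro ⟨⟨ι, hι⟩, c⟩ ⟨⟨ι', hι'⟩, c'⟩ h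
    have h0 : s ι * c = s ι' * c' := congrArg Subtype.val h
    have h1 : ι = ι' := by
      rw [← hs ι, ← hs ι', embOf_eq_iff]
      have : (s ι)⁻¹ * s ι' = c * (c' : L ≃ₐ[ℚ] L)⁻¹ := by
        rw [inv_mul_eq_iff_eq_mul, ← mul_assoc, h0, mul_inv_cancel_right]
      rw [this]
      exact C.mul_mem c.2 (C.inv_mem c'.2)
    subst h1
    have h2 : (c : L ≃ₐ[ℚ] L) = c' := mul_left_cancel h0
    have h3 : c = c' := Subtype.ext h2
    subst h3
    rfl
  · rintro ⟨g, hg⟩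
    have hfg := (hfix g).mpr hg
    have h1 : embOf C (s (embOf C g)) = embOf C g := hs _
    rw [embOf_eq_iff] at h1
    refine ⟨⟨⟨embOf C g, hfg⟩, ⟨_, h1⟩⟩, Subtype.ext ?_⟩
    show s (embOf C g) * ((s (embOf C g))⁻¹ * g) = g
    rw [mul_inv_cancel_left]

end Count

end Fermat.Agent.FrobDens
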