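import Mathlib

set_option autoImplicit false

/-!
# Counting ideals of given norm in a number field: multiplicativity and a crude bound
-/

namespace Fermat.Agent.FrobDens

open NumberField Ideal UniqueFactorizationMonoid

variable (K : Type*) [Field K] [NumberField K]

/-- number of ideals of norm `n` (and `0` for `n = 0`) -/
noncomputable def cnt (n : ℕ) : ℕ :=
  if n = 0 then 0 else Nat.card {I : Ideal (𝓞 K) // absNorm I = n}

lemma cnt_zero : cnt K 0 = 0 := by simp [cnt]

variable {K} in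
lemma cnt_of_ne_zero {n : ℕ} (hn : n ≠ 0) :
    cnt K n = Nat.card {I : Ideal (𝓞 K) // absNorm I = n} := by simp [cnt, hn]

lemma cnt_one : cnt K 1 = 1 := by
  rw [cnt_of_ne_zero one_ne_zero, Nat.card_eq_one_iff_unique]
  refine ⟨⟨fun a b => Subtype.ext ?_⟩, ⟨⟨⊤, absNorm_top⟩⟩⟩
  rw [absNorm_eq_one_iff.mp a.2, absNorm_eq_one_iff.mp b.2]

variable {K}

lemma isCoprime_of_absNorm {I J : Ideal (𝓞 K)} (h : (absNorm I).Coprime (absNorm J)) :
    IsCoprime I J := by
  rw [Ideal.isCoprime_iff_exists]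
  have h1 : IsCoprime ((absNorm I : ℕ) : ℤ) ((absNorm J : ℕ) : ℤ) :=
    Nat.isCoprime_iff_coprime.mpr h
  obtain ⟨a, b, hab⟩ := h1
  refine ⟨(a : 𝓞 K) * (absNorm I : ℕ), Ideal.mul_mem_left _ _ (absNorm_mem I),
    (b : 𝓞 K) * (absNorm J : ℕ), Ideal.mul_mem_left _ _ (absNorm_mem J), ?_⟩
  exact_mod_cast congrArg (Int.cast : ℤ → 𝓞 K) hab

lemma absNorm_dvd_pow_of_dvd_span {I : Ideal (𝓞 K)} {m : ℕ}
    (h : I ∣ Ideal.span {(m : 𝓞 K)}) : absNorm I ∣ m ^ Module.finrank ℚ K := by
  have h1 := map_dvd (absNorm (S := 𝓞 K)) h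
  have h2 : absNorm (Ideal.span {(m : 𝓞 K)}) = m ^ Module.finrank ℚ K := by
    rw [absNorm_span_singleton]
    have h3 : Algebra.norm ℤ (m : 𝓞 K) = (m : ℤ) ^ Module.finrank ℤ (𝓞 K) := by
      have h4 := Algebra.norm_algebraMap_of_basis (RingOfIntegers.basis K) (m : ℤ)
      rw [Module.finrank_eq_card_basis (RingOfIntegers.basis K), ← h4]
      simp
    rw [h3, Int.natAbs_pow, Int.natAbs_natCast, RingOfIntegers.rank]
  rwa [h2] at h1

lemma cnt_mul {m n : ℕ} (h : m.Coprime n) : cnt K (m * n) = cnt K m * cnt K n := by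
  rcases eq_or_ne m 0 with rfl | hm
  · simp [cnt_zero]
  rcases eq_or_ne n 0 with rfl | hn
  · simp [cnt_zero]
  rw [cnt_of_ne_zero hm, cnt_of_ne_zero hn, cnt_of_ne_zero (mul_ne_zero hm hn), ← Nat.card_prod]
  symm
  refine Nat.card_congr (Equiv.ofBijective
    (fun p : {I : Ideal (𝓞 K) // absNorm I = m} × {I : Ideal (𝓞 K) // absNorm I = n} =>
      (⟨p.1.1 * p.2.1, by rw [map_mul, p.1.2, p.2.2]⟩ : {I : Ideal (𝓞 K) // absNorm I = m * n}))
    ⟨?_, ?_⟩)
  · rintro ⟨⟨I, hI⟩, ⟨J, hJ⟩⟩ ⟨⟨I', hI'⟩, ⟨J', hJ'⟩⟩ heq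
    have heq' : I * J = I' * J' := congrArg Subtype.val heq
    have key : ∀ {A B A' B' : Ideal (𝓞 K)}, (absNorm A).Coprime (absNorm B') →
        A * B = A' * B' → A ∣ A' := by
      intro A B A' B' hc he
      exact (isCoprime_of_absNorm hc).dvd_of_dvd_mul_right (he ▸ dvd_mul_right A B)
    have h1 : I = I' := by
      apply dvd_antisymm
      · exact key (by rw [hI, hJ']; exact h) heq'
      · exact key (by rw [hI', hJ]; exact h) heq'.symm
    have h2 : J = J' := by
      apply dvd_antisymm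
      · exact key (B := I) (B' := I') (by rw [hJ, hI']; exact h.symm)
          (by rw [mul_comm J, mul_comm J']; exact heq')
      · exact key (B := I') (B' := I) (by rw [hJ', hI]; exact h.symm)
          (by rw [mul_comm J, mul_comm J']; exact heq'.symm)
    subst h1 h2
    rfl
  · rintro ⟨I, hI⟩
    have hmem : ((m * n : ℕ) : 𝓞 K) ∈ I := hI ▸ absNorm_mem I
    have hdvd : I ∣ Ideal.span {(m : 𝓞 K)} * Ideal.span {(n : 𝓞 K)} := by
      rw [Ideal.span_singleton_mul_span_singleton, Ideal.dvd_span_singleton]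
      exact_mod_cast hmem
    obtain ⟨A, B, hA, hB, rfl⟩ := exists_dvd_and_dvd_of_dvd_mul hdvd
    rw [map_mul] at hI
    have hAn : (absNorm A).Coprime n :=
      Nat.Coprime.coprime_dvd_left (absNorm_dvd_pow_of_dvd_span hA) (h.pow_left _)
    have hBm : (absNorm B).Coprime m :=
      Nat.Coprime.coprime_dvd_left (absNorm_dvd_pow_of_dvd_span hB) (h.symm.pow_left _)
    have hA1 : absNorm A ∣ m := hAn.dvd_of_dvd_mul_right (hI ▸ dvd_mul_right _ _)
    have hB1 : absNorm B ∣ n := hBm.dvd_of_dvd_mul_left (hI ▸ dvd_mul_left _ _)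
    have hA2 : absNorm A = m := by
      apply Nat.dvd_antisymm hA1
      have : m ∣ absNorm A * absNorm B := hI ▸ dvd_mul_right m n
      exact hBm.symm.dvd_of_dvd_mul_right this
    have hB2 : absNorm B = n := by
      apply Nat.dvd_antisymm hB1
      have : n ∣ absNorm A * absNorm B := hI ▸ dvd_mul_left n m
      exact hAn.symm.dvd_of_dvd_mul_left this
    exact ⟨⟨⟨A, hA2⟩, ⟨B, hB2⟩⟩, rfl⟩

open Classical in
/-- crude bound for the number of ideals of prime power norm -/
lemma cnt_prime_pow_le {ℓ : ℕ} (hℓ : ℓ.Prime) (e : ℕ) :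
    cnt K (ℓ ^ e) ≤ (e + 1) ^ Module.finrank ℚ K := by
  have hℓ0 : (ℓ : 𝓞 K) ≠ 0 := by exact_mod_cast hℓ.ne_zero
  have hspan : Ideal.span {(ℓ : 𝓞 K)} ≠ 0 := by
    rw [Ne, Ideal.zero_eq_bot, Ideal.span_singleton_eq_bot]; exact hℓ0
  set T : Finset (Ideal (𝓞 K)) := (normalizedFactors (Ideal.span {(ℓ : 𝓞 K)})).toFinset with hT
  -- every prime factor has norm at least `ℓ`, divisible by `ℓ`
  have hnorm : ∀ P ∈ T, ℓ ∣ absNorm P := by
    intro P hP
    rw [hT, Multiset.mem_toFinset] at hP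
    have h1 : P ∣ Ideal.span {(ℓ : 𝓞 K)} := dvd_of_mem_normalizedFactors hP
    have h2 : Prime P := prime_of_normalized_factor P hP
    have h3 := absNorm_dvd_pow_of_dvd_span h1
    obtain ⟨k, -, hk⟩ := (Nat.dvd_prime_pow hℓ).mp h3
    have hk0 : k ≠ 0 := by
      rintro rfl
      rw [pow_zero, absNorm_eq_one_iff] at hk
      exact h2.not_unit (by rw [hk]; exact Ideal.isUnit_iff.mpr rfl)
    rw [hk]
    exact dvd_pow_self ℓ hk0
  have hTcard : T.card ≤ Module.finrank ℚ K := by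
    have h1 : ∏ P ∈ T, P ∣ Ideal.span {(ℓ : 𝓞 K)} := by
      have h2 : (∏ P ∈ T, P) ∣ (normalizedFactors (Ideal.span {(ℓ : 𝓞 K)})).prod := by
        rw [Finset.prod_eq_multiset_prod, Multiset.map_id']
        apply Multiset.prod_dvd_prod_of_le
        rw [hT, Multiset.toFinset_val]
        exact Multiset.dedup_le _
      rwa [Ideal.prod_normalizedFactors_eq_self hspan] at h2
    have h2 := absNorm_dvd_pow_of_dvd_span h1
    rw [map_prod] at h2
    have h3 : ℓ ^ T.card ∣ ∏ P ∈ T, absNorm P := by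
      rw [← Finset.prod_const]
      exact Finset.prod_dvd_prod_of_dvd _ _ hnorm
    exact (Nat.pow_dvd_pow_iff_le_right hℓ.one_lt).mp (h3.trans h2)
  -- factors of an ideal of norm `ℓ^e`
  have hfac : ∀ I : Ideal (𝓞 K), absNorm I = ℓ ^ e →
      ∀ P ∈ normalizedFactors I, P ∈ T := by
    intro I hI P hP
    have h2 : Prime P := prime_of_normalized_factor P hP
    have hPI : P ∣ I := dvd_of_mem_normalizedFactors hP
    have h3 : ((ℓ ^ e : ℕ) : 𝓞 K) ∈ I := hI ▸ absNorm_mem I
    have h4 : ((ℓ : 𝓞 K)) ^ e ∈ P := by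
      have := (Ideal.dvd_iff_le.mp hPI) h3
      exact_mod_cast this
    haveI : P.IsPrime := Ideal.isPrime_of_prime h2
    have h5 : (ℓ : 𝓞 K) ∈ P := Ideal.IsPrime.mem_of_pow_mem inferInstance _ h4
    rw [hT, Multiset.mem_toFinset]
    rw [Ideal.mem_normalizedFactors_iff hspan]
    exact ⟨inferInstance, by rw [Ideal.span_singleton_le_iff_mem]; exact h5⟩
  have hcount : ∀ I : Ideal (𝓞 K), absNorm I = ℓ ^ e →
      ∀ P, (normalizedFactors I).count P ≤ e := by
    intro I hI P
    have hI0 : I ≠ 0 := by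
      rintro rfl
      rw [Ideal.zero_eq_bot, absNorm_bot] at hI
      exact (pow_pos hℓ.pos e).ne hI
    have h1 : Multiset.card (normalizedFactors I) ≤ e := by
      have h2 : absNorm I = ((normalizedFactors I).map absNorm).prod := by
        conv_lhs => rw [← Ideal.prod_normalizedFactors_eq_self hI0]
        rw [map_multiset_prod]
      have h3 : ℓ ^ Multiset.card (normalizedFactors I) ∣ absNorm I := by
        rw [h2, ← Multiset.prod_replicate, ← Multiset.map_const']
        apply Multiset.prod_dvd_prod_of_dvd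
        intro P hP
        exact hnorm P (hfac I hI P hP)
      rw [hI] at h3
      exact (Nat.pow_dvd_pow_iff_le_right hℓ.one_lt).mp h3
    exact (Multiset.count_le_card _ _).trans h1
  rw [cnt_of_ne_zero (pow_ne_zero e hℓ.ne_zero)]
  let F : {I : Ideal (𝓞 K) // absNorm I = ℓ ^ e} → (T → Fin (e + 1)) :=
    fun I P => ⟨(normalizedFactors I.1).count P.1, Nat.lt_succ_of_le (hcount I.1 I.2 _)⟩
  have hF : Function.Injective F := by
    rintro ⟨I, hI⟩ ⟨J, hJ⟩ hIJ
    have hne : ∀ A : Ideal (𝓞 K), absNorm A = ℓ ^ e → A ≠ 0 := by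
      rintro A hA rfl
      rw [Ideal.zero_eq_bot, absNorm_bot] at hA
      exact (pow_pos hℓ.pos e).ne hA
    have h1 : normalizedFactors I = normalizedFactors J := by
      ext P
      by_cases hP : P ∈ T
      · have := congrFun hIJ ⟨P, hP⟩
        exact congrArg Fin.val this
      · rw [Multiset.count_eq_zero_of_notMem (fun h => hP (hfac I hI P h)),
          Multiset.count_eq_zero_of_notMem (fun h => hP (hfac J hJ P h))]
    apply Subtype.ext
    show I = J
    rw [← Ideal.prod_normalizedFactors_eq_self (hne I hI), h1,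
      Ideal.prod_normalizedFactors_eq_self (hne J hJ)]
  calc Nat.card {I : Ideal (𝓞 K) // absNorm I = ℓ ^ e} ≤ Nat.card (T → Fin (e + 1)) :=
        Nat.card_le_card_of_injective F hF
    _ = (e + 1) ^ T.card := by simp
    _ ≤ (e + 1) ^ Module.finrank ℚ K := Nat.pow_le_pow_right (Nat.succ_pos e) hTcard

end Fermat.Agent.FrobDens
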